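/-
Lib/J4 (sub-architect helper269): Jacobi's identity `θ t₄ / t₄ = - G₄²`.  SKELETON (exact statements
of the nodes; the final files live in `Fermat/Agent/Lib/J4/*.lean`, namespace
`Fermat.Agent.Lib.J4`, NOT `Skel`).
-/
import Fermat.Agent.Lib.J4.Defs
import Fermat.Agent.Lib.EtaFN.Final
import Fermat.Agent.S16.EisP
import Fermat.Agent.Lib.Theta.Basic
import Fermat.Agent.Lib.EtaUnit.G4.Main
import Fermat.Agent.Lib.Gamma0Cosets.Card
import Fermat.Prelude.Thm_ModularForm_sturm_bound_Gamma0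

set_option autoImplicit false

noncomputable section

namespace Fermat.Agent.Lib.J4.Skel

open ModularCurve Fermat.Agent.Lib.Hauptmodul PowerSeries UpperHalfPlane CongruenceSubgroup
open Fermat.Agent.S24
open scoped MatrixGroups

local notation "𝕢" => Function.Periodic.qParam

/-! ### formal part -/

/-- F1 `LogDeriv.lean`: the logarithmic derivative of the Euler product. -/
theorem thetaD_etaProd : thetaD ℤ etaProd = -(etaProd * S16.sigZ 1) := by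
  sorry

/-- F2 `Formal.lean` -/
theorem thetaD_dilZ (d : ℕ) (P : PowerSeries ℤ) :
    thetaD ℤ (dilZ d P) = (d : PowerSeries ℤ) * dilZ d (thetaD ℤ P) := by
  sorry

/-- F3 `Formal.lean` (the hypothesis is node F1) -/
theorem thetaD_h4Z_of (h : thetaD ℤ etaProd = -(etaProd * S16.sigZ 1)) :
    thetaD ℤ h4Z = h4Z * E24Z := by
  sorry

theorem thetaD_h4Z : thetaD ℤ h4Z = h4Z * E24Z := thetaD_h4Z_of thetaD_etaProd

/-- F4 `Formal.lean` -/
theorem coeff_zero_G4Z_sq : coeff 0 (G4Z ^ 2) = 1 := by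
  sorry

/-- F4 `Formal.lean` -/
theorem coeff_one_G4Z_sq : coeff 1 (G4Z ^ 2) = 8 := by
  sorry

/-! ### bridges -/

/-- B1 `Bridge.lean` -/
theorem theta_toL (S : Type*) [CommRing S] (P : PowerSeries ℤ) :
    Theta.theta (toL S P) = toL S (thetaD ℤ P) := by
  sorry

/-- B2 `Bridge.lean` -/
theorem etaSer_D4 : EtaFN.etaSer Finset.univ EtaFN.D4 EtaFN.r4 = toL Kbar G4Z := by
  sorry

/-- B2 `Bridge.lean` -/
theorem etaSer_Dt4_mul :
    (HahnSeries.single (-1 : ℤ) (1 : Kbar) * EtaFN.etaSer Finset.univ EtaFN.Dt4 EtaFN.rt4) *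
      toL Kbar h4Z = 1 := by
  sorry

/-! ### analytic part -/

/-- A1 `Form.lean`: `G₄²` is a modular form of weight two on `Γ₀(4)`. -/
theorem exists_G4sq : ∃ F : ModularForm (Gamma0 4) 2,
    ∀ τ : ℍ, F τ = EtaFN.etaQuot Finset.univ EtaFN.D4 EtaFN.r4 τ ^ 2 := by
  sorry

/-- A2 `QExp.lean` (the hypothesis is node B2) -/
theorem hasSum_G4sq_of (h : EtaFN.etaSer Finset.univ EtaFN.D4 EtaFN.r4 = toL Kbar G4Z) (τ : ℍ) :
    HasSum (fun n : ℕ => ((coeff n (G4Z ^ 2) : ℤ) : ℂ) • 𝕢 1 τ ^ n)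
      (EtaFN.etaQuot Finset.univ EtaFN.D4 EtaFN.r4 τ ^ 2) := by
  sorry

theorem hasSum_G4sq (τ : ℍ) :
    HasSum (fun n : ℕ => ((coeff n (G4Z ^ 2) : ℤ) : ℂ) • 𝕢 1 τ ^ n)
      (EtaFN.etaQuot Finset.univ EtaFN.D4 EtaFN.r4 τ ^ 2) := hasSum_G4sq_of etaSer_D4 τ

/-- A3 `Sturm.lean` -/
theorem index_four : (Gamma0 4).index = 6 := by
  sorry

/-- A3 `Sturm.lean` -/
theorem coeff_eisN_four (n : ℕ) :
    8 * (UpperHalfPlane.qExpansion 1 (S16.EisP.eisN 4)).coeff n = ((coeff n E24Z : ℤ) : ℂ) := by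
  sorry

/-- A4 `Sturm.lean`: the four squares theorem. -/
theorem G4Z_sq : G4Z ^ 2 = E24Z := by
  sorry

/-! ### the results -/

/-- **J4 over `ℤ`.** -/
theorem thetaD_h4Z_eq : thetaD ℤ h4Z = h4Z * G4Z ^ 2 := by
  rw [thetaD_h4Z, G4Z_sq]

/-- **J4 over any commutative ring** (`h₄ = 1/t₄`, so `θ h₄ / h₄ = - θ t₄ / t₄ = G₄²`). -/
theorem theta_toL_h4Z (S : Type*) [CommRing S] :
    Theta.theta (toL S h4Z) = toL S h4Z * toL S G4Z ^ 2 := by
  rw [theta_toL, thetaD_h4Z_eq, map_mul, map_pow]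

/-- B4 `Bridge.lean` (the hypothesis is the main theorem) -/
theorem theta_t4_of (h : Theta.theta (toL Kbar h4Z) = toL Kbar h4Z * toL Kbar G4Z ^ 2) :
    Theta.theta
        (HahnSeries.single (-1 : ℤ) (1 : Kbar) * EtaFN.etaSer Finset.univ EtaFN.Dt4 EtaFN.rt4) =
      -(HahnSeries.single (-1 : ℤ) (1 : Kbar) * EtaFN.etaSer Finset.univ EtaFN.Dt4 EtaFN.rt4) *
        EtaFN.etaSer Finset.univ EtaFN.D4 EtaFN.r4 ^ 2 := by
  sorry

/-- **J4 in the language of `Lib/EtaFN`.** -/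
theorem theta_t4 :
    Theta.theta
        (HahnSeries.single (-1 : ℤ) (1 : Kbar) * EtaFN.etaSer Finset.univ EtaFN.Dt4 EtaFN.rt4) =
      -(HahnSeries.single (-1 : ℤ) (1 : Kbar) * EtaFN.etaSer Finset.univ EtaFN.Dt4 EtaFN.rt4) *
        EtaFN.etaSer Finset.univ EtaFN.D4 EtaFN.r4 ^ 2 := theta_t4_of (theta_toL_h4Z Kbar)

/-- B3 `Bridge.lean`: the series of `Lib/EtaUnit`. -/
theorem G4s_eq : EtaUnit.G4s = G4Z := by
  sorry

end Fermat.Agent.Lib.J4.Skel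

end
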